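import Mathlib

/-!
# The lemma of Johnson and Lindenstrauss

Random signs (Achlioptas): moment bounds for Rademacher sums and exponential tail estimates, all as
finite averages.
-/

set_option autoImplicit false

noncomputable section

namespace FA.JohnsonLindenstrauss

open Finset Real
open scoped Nat

variable {d k : ℕ}

/-- The sign of a bit. -/
def sgn (b : Bool) : ℝ := if b then 1 else -1

/-- A signed sum. -/
def rad (x : Fin d → ℝ) (s : Fin d → Bool) : ℝ := ∑ i, x i * sgn (s i)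

lemma sum_cons {M : Type*} [AddCommMonoid M] (g : (Fin (d + 1) → Bool) → M) :
    ∑ s, g s = ∑ b : Bool, ∑ s' : Fin d → Bool, g (Fin.cons b s') := by
  rw [← Fintype.sum_prod_type', Fintype.sum_equiv (Fin.consEquiv fun _ : Fin (d + 1) => Bool)]
  intro x
  rfl

lemma rad_cons (x : Fin (d + 1) → ℝ) (b : Bool) (s : Fin d → Bool) :
    rad x (Fin.cons b s) = x 0 * sgn b + rad (fun i => x i.succ) s := by
  simp [rad, Fin.sum_univ_succ]

lemma sum_rad_sq : ∀ {d : ℕ} (x : Fin d → ℝ),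
    ∑ s, rad x s ^ 2 = (2 : ℝ) ^ d * ∑ i, x i ^ 2
  | 0, x => by simp [rad]
  | d + 1, x => by
    have ih := sum_rad_sq fun i => x i.succ
    rw [sum_cons, Fintype.sum_bool, ← sum_add_distrib, Fin.sum_univ_succ]
    simp only [rad_cons, sgn, if_true, Bool.false_eq_true, if_false]
    calc ∑ s, ((x 0 * 1 + rad (fun i => x i.succ) s) ^ 2 +
          (x 0 * -1 + rad (fun i => x i.succ) s) ^ 2)
        = ∑ s : Fin d → Bool, (2 * x 0 ^ 2 + 2 * rad (fun i => x i.succ) s ^ 2) :=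
          sum_congr rfl fun s _ => by ring
      _ = _ := by
          rw [sum_add_distrib, ← mul_sum, ← mul_sum, ih, sum_const, card_univ, Fintype.card_fun,
            Fintype.card_bool, Fintype.card_fin, nsmul_eq_mul]
          push_cast
          ring

/-- The Gaussian moment `(2m - 1)!!`. -/
def gm (m : ℕ) : ℝ := ((2 * m)! : ℝ) / (2 ^ m * (m ! : ℝ))

lemma two_pow_fact_le : ∀ j : ℕ, 2 ^ j * j ! ≤ (2 * j)!
  | 0 => by simp
  | j + 1 => by
    have ih := two_pow_fact_le j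
    rw [show 2 * (j + 1) = 2 * j + 1 + 1 by ring, Nat.factorial_succ, Nat.factorial_succ,
      Nat.factorial_succ, pow_succ]
    calc 2 ^ j * 2 * ((j + 1) * j !) = (2 * j + 1 + 1) * (1 * (2 ^ j * j !)) := by ring
      _ ≤ (2 * j + 1 + 1) * ((2 * j + 1) * (2 * j)!) :=
        Nat.mul_le_mul_left _ (Nat.mul_le_mul (by omega) ih)

lemma fact_two_mul_le : ∀ m : ℕ, (2 * m)! ≤ 4 ^ m * (m ! * m !)
  | 0 => by simp
  | m + 1 => by
    have ih := fact_two_mul_le m
    rw [show 2 * (m + 1) = 2 * m + 1 + 1 by ring, Nat.factorial_succ, Nat.factorial_succ,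
      Nat.factorial_succ, pow_succ]
    calc (2 * m + 1 + 1) * ((2 * m + 1) * (2 * m)!)
        ≤ (2 * (m + 1)) * ((2 * (m + 1)) * (4 ^ m * (m ! * m !))) :=
          Nat.mul_le_mul (by omega) (Nat.mul_le_mul (by omega) ih)
      _ = _ := by ring

lemma gm_div_le (m : ℕ) : gm m / (m ! : ℝ) ≤ 2 ^ m := by
  have h : ((2 * m)! : ℝ) ≤ 4 ^ m * ((m ! : ℝ) * m !) := by exact_mod_cast fact_two_mul_le m
  rw [gm, div_div, div_le_iff₀ (by positivity)]
  refine h.trans (le_of_eq ?_)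
  rw [show (4 : ℝ) ^ m = 2 ^ m * 2 ^ m by rw [← mul_pow]; norm_num]
  ring

lemma gm_coef {m j : ℕ} (hj : j ≤ m) :
    ((2 * m).choose (2 * j) : ℝ) * gm (m - j) ≤ gm m * (m.choose j : ℝ) := by
  have h : (2 : ℝ) ^ j * (j ! : ℝ) ≤ ((2 * j)! : ℝ) := by exact_mod_cast two_pow_fact_le j
  rw [Nat.cast_choose ℝ (show 2 * j ≤ 2 * m by omega), Nat.cast_choose ℝ hj, gm, gm,
    show 2 * m - 2 * j = 2 * (m - j) by omega]
  obtain ⟨l, rfl⟩ := Nat.exists_eq_add_of_le hj
  rw [Nat.add_sub_cancel_left, pow_add]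
  have e1 : ((2 * (j + l))! : ℝ) / (((2 * j)! : ℝ) * (2 * l)!) *
      (((2 * l)! : ℝ) / (2 ^ l * l !)) = ((2 * (j + l))! : ℝ) / (((2 * j)! : ℝ) * (2 ^ l * l !)) := by
    field_simp
  have e2 : ((2 * (j + l))! : ℝ) / (2 ^ j * 2 ^ l * (j + l)!) *
      (((j + l)! : ℝ) / ((j ! : ℝ) * l !)) =
      ((2 * (j + l))! : ℝ) / ((2 ^ j * j !) * (2 ^ l * l !)) := by
    field_simp
  rw [e1, e2]
  gcongr

lemma sum_range_even {f : ℕ → ℝ} (h : ∀ i, Odd i → f i = 0) : ∀ m,
    ∑ i ∈ range (2 * m + 1), f i = ∑ j ∈ range (m + 1), f (2 * j)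
  | 0 => by simp
  | m + 1 => by
    rw [show 2 * (m + 1) + 1 = 2 * m + 1 + 1 + 1 by ring, sum_range_succ, sum_range_succ,
      sum_range_even h m, h (2 * m + 1) ⟨m, rfl⟩, sum_range_succ _ (m + 1)]
    ring_nf

lemma sum_rad_pow_le : ∀ {d : ℕ} (x : Fin d → ℝ) (m : ℕ),
    ∑ s, rad x s ^ (2 * m) ≤ (2 : ℝ) ^ d * (gm m * (∑ i, x i ^ 2) ^ m)
  | 0, x, m => by
    rcases Nat.eq_zero_or_pos m with rfl | hm
    · simp [gm]
    · simp [rad, hm.ne']
  | d + 1, x, m => by
    have hpair : ∀ (a S : ℝ), (a * 1 + S) ^ (2 * m) + (a * -1 + S) ^ (2 * m) =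
        2 * ∑ j ∈ range (m + 1), ((2 * m).choose (2 * j) : ℝ) * (a ^ 2) ^ j * S ^ (2 * (m - j)) := by
      intro a S
      rw [mul_one, mul_neg_one, add_pow, add_pow, ← sum_add_distrib, sum_range_even _ m, mul_sum]
      · refine sum_congr rfl fun j _ => ?_
        rw [show 2 * m - 2 * j = 2 * (m - j) by omega, (even_two_mul j).neg_pow, ← pow_mul]
        ring
      · intro i hi
        rw [hi.neg_pow]
        ring
    rw [sum_cons, Fintype.sum_bool, ← sum_add_distrib, Fin.sum_univ_succ]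
    simp only [rad_cons, sgn, if_true, Bool.false_eq_true, if_false, hpair]
    rw [← mul_sum, sum_comm, show (2 : ℝ) ^ (d + 1) = 2 * 2 ^ d from pow_succ' _ _, mul_assoc]
    refine mul_le_mul_of_nonneg_left ?_ (by norm_num)
    rw [add_pow, mul_sum, mul_sum]
    refine sum_le_sum fun j hj => ?_
    have hj' : j ≤ m := Nat.lt_succ_iff.1 (mem_range.1 hj)
    rw [← mul_sum]
    calc ((2 * m).choose (2 * j) : ℝ) * (x 0 ^ 2) ^ j *
          ∑ s, rad (fun i => x i.succ) s ^ (2 * (m - j))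
        ≤ ((2 * m).choose (2 * j) : ℝ) * (x 0 ^ 2) ^ j *
          ((2 : ℝ) ^ d * (gm (m - j) * (∑ i : Fin d, x i.succ ^ 2) ^ (m - j))) :=
          mul_le_mul_of_nonneg_left (sum_rad_pow_le _ _) (by positivity)
      _ = (((2 * m).choose (2 * j) : ℝ) * gm (m - j)) *
          ((2 : ℝ) ^ d * ((x 0 ^ 2) ^ j * (∑ i : Fin d, x i.succ ^ 2) ^ (m - j))) := by ring
      _ ≤ (gm m * (m.choose j : ℝ)) *
          ((2 : ℝ) ^ d * ((x 0 ^ 2) ^ j * (∑ i : Fin d, x i.succ ^ 2) ^ (m - j))) :=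
          mul_le_mul_of_nonneg_right (gm_coef hj') (by positivity)
      _ = _ := by ring

/-- The upper moment generating function. -/
lemma sum_exp_le {x : Fin d → ℝ} (hx : ∑ i, x i ^ 2 = 1) {t : ℝ} (ht : 0 ≤ t) (ht' : t ≤ 1 / 4) :
    ∑ s, exp (t * rad x s ^ 2) ≤ (2 : ℝ) ^ d * exp (t + 8 * t ^ 2) := by
  have hone : ∀ s : Fin d → Bool,
      HasSum (fun m => (t * rad x s ^ 2) ^ m / (m ! : ℝ)) (exp (t * rad x s ^ 2)) := fun s => by
    rw [Real.exp_eq_exp_ℝ]
    exact NormedSpace.expSeries_div_hasSum_exp _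
  have hL := hasSum_sum (s := (univ : Finset (Fin d → Bool))) fun s _ => hone s
  have hg : HasSum (fun m => (2 : ℝ) ^ d * ((2 * t) ^ m - if m = 1 then t else 0))
      ((2 : ℝ) ^ d * ((1 - 2 * t)⁻¹ - t)) :=
    ((hasSum_geometric_of_lt_one (by positivity) (by linarith)).sub (hasSum_ite_eq 1 t)).mul_left _
  refine (hasSum_le (fun m => ?_) hL hg).trans ?_
  · have hm := sum_rad_pow_le x m
    rw [hx, one_pow, mul_one] at hm
    calc ∑ s, (t * rad x s ^ 2) ^ m / (m ! : ℝ) = t ^ m / (m ! : ℝ) * ∑ s, rad x s ^ (2 * m) := by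
          rw [mul_sum]
          refine sum_congr rfl fun s _ => ?_
          rw [mul_pow, ← pow_mul]
          ring
      _ ≤ t ^ m / (m ! : ℝ) * ((2 : ℝ) ^ d * gm m) :=
          mul_le_mul_of_nonneg_left hm (by positivity)
      _ = (2 : ℝ) ^ d * (t ^ m * (gm m / (m ! : ℝ))) := by ring
      _ ≤ _ := by
          refine mul_le_mul_of_nonneg_left ?_ (by positivity)
          rcases eq_or_ne m 1 with rfl | hm1
          · norm_num [gm]
            linarith
          · rw [if_neg hm1, sub_zero, mul_pow, mul_comm ((2 : ℝ) ^ m)]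
            exact mul_le_mul_of_nonneg_left (gm_div_le m) (by positivity)
  · refine mul_le_mul_of_nonneg_left ?_ (by positivity)
    refine le_trans ?_ (add_one_le_exp _)
    rw [sub_le_iff_le_add, inv_le_iff_one_le_mul₀ (by linarith)]
    nlinarith

/-- The lower moment generating function. -/
lemma sum_exp_neg_le {x : Fin d → ℝ} (hx : ∑ i, x i ^ 2 = 1) {t : ℝ} (ht : 0 ≤ t) :
    ∑ s, exp (-t * rad x s ^ 2) ≤ (2 : ℝ) ^ d * exp (-t + 3 / 2 * t ^ 2) := by
  have h4 : ∑ s, rad x s ^ 4 ≤ (2 : ℝ) ^ d * 3 := by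
    have := sum_rad_pow_le x 2
    rw [hx] at this
    norm_num [gm, Nat.factorial] at this
    exact this
  have hquad : ∀ u : ℝ, 0 ≤ u → exp (-u) ≤ 1 - u + u ^ 2 / 2 := fun u hu => by
    rw [exp_neg, inv_le_iff_one_le_mul₀ (exp_pos u)]
    have h := quadratic_le_exp_of_nonneg hu
    have h' : 0 ≤ 1 - u + u ^ 2 / 2 := by nlinarith [sq_nonneg (u - 1)]
    nlinarith [mul_le_mul_of_nonneg_left h h', pow_nonneg hu 4]
  calc ∑ s, exp (-t * rad x s ^ 2)
      ≤ ∑ s, (1 - t * rad x s ^ 2 + t ^ 2 / 2 * rad x s ^ 4) :=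
        sum_le_sum fun s _ => by
          have := hquad (t * rad x s ^ 2) (by positivity)
          rw [neg_mul]
          linarith
    _ = (2 : ℝ) ^ d - t * (2 : ℝ) ^ d + t ^ 2 / 2 * ∑ s, rad x s ^ 4 := by
        rw [sum_add_distrib, sum_sub_distrib, ← mul_sum, ← mul_sum, sum_rad_sq, hx, sum_const,
          card_univ, Fintype.card_fun, Fintype.card_bool, Fintype.card_fin, nsmul_eq_mul]
        push_cast
        ring
    _ ≤ (2 : ℝ) ^ d * (-t + 3 / 2 * t ^ 2 + 1) := by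
        nlinarith [mul_le_mul_of_nonneg_left h4 (by positivity : 0 ≤ t ^ 2 / 2)]
    _ ≤ _ := mul_le_mul_of_nonneg_left (add_one_le_exp _) (by positivity)

/-- Markov's inequality for independent rows. -/
lemma card_tail_le {x : Fin d → ℝ} {c B a : ℝ} (p : (Fin k → Fin d → Bool) → Prop) [DecidablePred p]
    (hp : ∀ s, p s → a ≤ c * ∑ i, rad x (s i) ^ 2)
    (hB : ∑ s, exp (c * rad x s ^ 2) ≤ (2 : ℝ) ^ d * exp B) :
    (((univ : Finset (Fin k → Fin d → Bool)).filter p).card : ℝ) ≤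
      ((2 : ℝ) ^ d) ^ k * exp (k * B - a) := by
  rw [exp_sub, ← mul_div_assoc, le_div_iff₀ (exp_pos a), exp_nat_mul, ← mul_pow]
  calc (((univ : Finset (Fin k → Fin d → Bool)).filter p).card : ℝ) * exp a
      = ∑ _s ∈ (univ : Finset (Fin k → Fin d → Bool)).filter p, exp a := by
        rw [sum_const, nsmul_eq_mul]
    _ ≤ ∑ s ∈ (univ : Finset (Fin k → Fin d → Bool)).filter p,
          ∏ i, exp (c * rad x (s i) ^ 2) := by
        refine sum_le_sum fun s hs => ?_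
        rw [← exp_sum, exp_le_exp, ← mul_sum]
        exact hp s (mem_filter.1 hs).2
    _ ≤ ∑ s : Fin k → Fin d → Bool, ∏ i, exp (c * rad x (s i) ^ 2) :=
        sum_le_univ_sum_of_nonneg fun s => by positivity
    _ = (∑ s : Fin d → Bool, exp (c * rad x s ^ 2)) ^ k := (Fintype.sum_pow (fun s => exp (c * rad x s ^ 2)) k).symm
    _ ≤ _ := pow_le_pow_left₀ (by positivity) hB k

/-- Few sign matrices distort a given unit vector. -/
lemma card_bad_le {x : Fin d → ℝ} (hx : ∑ i, x i ^ 2 = 1) {ε : ℝ} (hε : 0 < ε) (hε1 : ε ≤ 1) :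
    (((univ : Finset (Fin k → Fin d → Bool)).filter fun s =>
      ¬ ((1 - ε) * k ≤ ∑ i, rad x (s i) ^ 2 ∧ ∑ i, rad x (s i) ^ 2 ≤ (1 + ε) * k)).card : ℝ) ≤
      2 * ((2 : ℝ) ^ d) ^ k * exp (-(k * ε ^ 2) / 32) := by
  have h1 := card_tail_le (k := k) (x := x) (c := ε / 16) (B := ε / 16 + 8 * (ε / 16) ^ 2)
    (a := ε / 16 * ((1 + ε) * k)) (fun s => (1 + ε) * k < ∑ i, rad x (s i) ^ 2)
    (fun s hs => by nlinarith) (sum_exp_le hx (by positivity) (by linarith))
  have h2 := card_tail_le (k := k) (x := x) (c := -(ε / 3)) (B := -(ε / 3) + 3 / 2 * (ε / 3) ^ 2)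
    (a := -(ε / 3) * ((1 - ε) * k)) (fun s => ∑ i, rad x (s i) ^ 2 < (1 - ε) * k)
    (fun s hs => by nlinarith) (sum_exp_neg_le hx (by positivity))
  rw [show (k : ℝ) * (ε / 16 + 8 * (ε / 16) ^ 2) - ε / 16 * ((1 + ε) * k) = -(k * ε ^ 2) / 32 by
    ring] at h1
  have h3 : (k : ℝ) * (-(ε / 3) + 3 / 2 * (ε / 3) ^ 2) - -(ε / 3) * ((1 - ε) * k) ≤
      -(k * ε ^ 2) / 32 := by
    nlinarith [mul_nonneg (Nat.cast_nonneg' k : (0 : ℝ) ≤ k) (sq_nonneg ε)]
  have h2' := h2.trans (mul_le_mul_of_nonneg_left (exp_le_exp.2 h3) (by positivity))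
  refine le_trans (Nat.cast_le.2 (le_trans (card_le_card fun s hs => ?_) (card_union_le _ _)))
    (le_trans (le_of_eq (Nat.cast_add _ _))
      (le_trans (add_le_add h1 h2') (le_of_eq (by ring))))
  simp only [mem_filter, mem_univ, true_and, not_and_or, not_le] at hs
  simp only [mem_union, mem_filter, mem_univ, true_and]
  exact hs.symm

variable {E : Type*} [NormedAddCommGroup E] [InnerProductSpace ℝ E]

/-- Coordinates along an orthonormal basis of a subspace compute norms. -/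
lemma exists_coords (V : Submodule ℝ E) [FiniteDimensional ℝ V] :
    ∃ (d : ℕ) (c : E →ₗ[ℝ] (Fin d → ℝ)), ∀ v ∈ V, ∑ i, c v i ^ 2 = ‖v‖ ^ 2 := by
  let b := stdOrthonormalBasis ℝ V
  refine ⟨_, LinearMap.pi fun i => (innerSL ℝ ((b i : V) : E)).toLinearMap, fun v hv => ?_⟩
  have h := b.sum_sq_norm_inner_right (⟨v, hv⟩ : V)
  simpa [Submodule.coe_inner, Submodule.coe_norm] using h

/-- **Johnson and Lindenstrauss**. -/
theorem exists_embedding {n : ℕ} (x : Fin n → E) {ε : ℝ} (hε : 0 < ε) (hε1 : ε ≤ 1)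
    (hk : 64 * log n ≤ ε ^ 2 * k) :
    ∃ f : E →ₗ[ℝ] EuclideanSpace ℝ (Fin k), ∀ i j,
      (1 - ε) * ‖x i - x j‖ ^ 2 ≤ ‖f (x i) - f (x j)‖ ^ 2 ∧
        ‖f (x i) - f (x j)‖ ^ 2 ≤ (1 + ε) * ‖x i - x j‖ ^ 2 := by
  classical
  rcases lt_or_ge n 2 with hn | hn
  · refine ⟨0, fun i j => ?_⟩
    have : i = j := Fin.ext (by omega)
    simp [this]
  have hk0 : (0 : ℝ) < k := by
    have : 0 < log (n : ℝ) := log_pos (by exact_mod_cast hn)
    by_contra h
    nlinarith [not_lt.1 h, sq_nonneg ε]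
  have : FiniteDimensional ℝ (Submodule.span ℝ (Set.range x)) :=
    FiniteDimensional.span_of_finite ℝ (Set.finite_range x)
  obtain ⟨d, c, hc⟩ := exists_coords (Submodule.span ℝ (Set.range x))
  let P : Finset (Fin n × Fin n) := univ.filter fun p => p.1 < p.2
  let u : Fin n × Fin n → E := fun p => x p.1 - x p.2
  have hu : ∀ p, ∑ i, c (u p) i ^ 2 = ‖u p‖ ^ 2 := fun p => hc _
    (Submodule.sub_mem _ (Submodule.subset_span ⟨_, rfl⟩) (Submodule.subset_span ⟨_, rfl⟩))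
  let Good : Fin n × Fin n → (Fin k → Fin d → Bool) → Prop := fun p s =>
    (1 - ε) * k * ‖u p‖ ^ 2 ≤ ∑ i, rad (c (u p)) (s i) ^ 2 ∧
      ∑ i, rad (c (u p)) (s i) ^ 2 ≤ (1 + ε) * k * ‖u p‖ ^ 2
  have hbad : ∀ p, (((univ : Finset (Fin k → Fin d → Bool)).filter fun s => ¬ Good p s).card : ℝ) ≤
      2 * ((2 : ℝ) ^ d) ^ k * exp (-(k * ε ^ 2) / 32) := by
    intro p
    have hrad : ∀ (r : ℝ) (w : Fin d → ℝ) s, rad (r • w) s = r * rad w s := fun r w s => by
      simp [rad, mul_sum, mul_assoc]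
    by_cases h0 : ‖u p‖ = 0
    · have hz : u p = 0 := norm_eq_zero.1 h0
      have : (univ : Finset (Fin k → Fin d → Bool)).filter (fun s => ¬ Good p s) = ∅ := by
        refine filter_eq_empty_iff.2 fun s _ => not_not.2 ?_
        simp [Good, rad, hz]
      rw [this, card_empty, Nat.cast_zero]
      positivity
    · have hw : ∑ i, (‖u p‖⁻¹ • c (u p)) i ^ 2 = 1 := by
        simp only [Pi.smul_apply, smul_eq_mul, mul_pow, ← mul_sum, hu]
        field_simp
      refine le_trans (Nat.cast_le.2 (card_le_card fun s hs => ?_)) (card_bad_le hw hε hε1)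
      simp only [mem_filter, mem_univ, true_and] at hs ⊢
      refine fun hgood => hs ?_
      have hpos : 0 < ‖u p‖ ^ 2 := by positivity
      simp only [hrad, mul_pow, ← mul_sum, inv_pow] at hgood
      rw [le_inv_mul_iff₀ hpos, inv_mul_le_iff₀ hpos] at hgood
      exact ⟨le_trans (le_of_eq (by ring)) hgood.1, hgood.2.trans (le_of_eq (by ring))⟩
  obtain ⟨s, hs⟩ : ∃ s, ∀ p ∈ P, Good p s := by
    by_contra hno
    push Not at hno
    have hcover : (univ : Finset (Fin k → Fin d → Bool)) ⊆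
        P.biUnion fun p => univ.filter fun s => ¬ Good p s := fun s _ => by
      obtain ⟨p, hp, hps⟩ := hno s
      exact mem_biUnion.2 ⟨p, hp, mem_filter.2 ⟨mem_univ _, hps⟩⟩
    have h1 : (((2 : ℝ) ^ d) ^ k) ≤
        (P.card : ℝ) * (2 * ((2 : ℝ) ^ d) ^ k * exp (-(k * ε ^ 2) / 32)) := by
      calc (((2 : ℝ) ^ d) ^ k) = ((univ : Finset (Fin k → Fin d → Bool)).card : ℝ) := by
            simp [Fintype.card_fin]
        _ ≤ ((P.biUnion fun p => univ.filter fun s => ¬ Good p s).card : ℝ) :=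
            Nat.cast_le.2 (card_le_card hcover)
        _ ≤ ∑ p ∈ P, (((univ : Finset (Fin k → Fin d → Bool)).filter fun s => ¬ Good p s).card : ℝ) := by
            exact_mod_cast card_biUnion_le
        _ ≤ ∑ _p ∈ P, _ := sum_le_sum fun p _ => hbad p
        _ = _ := by rw [sum_const, nsmul_eq_mul]
    have hP : 2 * P.card < n * n := by
      let P' : Finset (Fin n × Fin n) := univ.filter fun p => p.2 < p.1
      have hsw : P'.card = P.card := card_bij' (fun p _ => p.swap) (fun p _ => p.swap)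
        (fun p hp => by simpa [P, P'] using hp) (fun p hp => by simpa [P, P'] using hp)
        (fun p _ => Prod.swap_swap p) (fun p _ => Prod.swap_swap p)
      have hdisj : Disjoint P P' := disjoint_left.2 fun p hp hp' =>
        lt_asymm (mem_filter.1 hp).2 (mem_filter.1 hp').2
      have hlt := card_lt_card (s := P ∪ P') (t := univ) (ssubset_univ_iff.2 fun h => by
        have : ((⟨0, by omega⟩ : Fin n), (⟨0, by omega⟩ : Fin n)) ∈ P ∪ P' := by rw [h]; exact mem_univ _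
        simp [P, P'] at this)
      rw [card_union_of_disjoint hdisj, hsw, card_univ, Fintype.card_prod, Fintype.card_fin] at hlt
      omega
    have hn0 : (0 : ℝ) < n := by positivity
    have h2 : exp (-(k * ε ^ 2) / 32) ≤ 1 / ((n : ℝ) * n) := by
      rw [one_div, ← exp_log (mul_pos hn0 hn0), ← exp_neg, exp_le_exp, log_mul hn0.ne' hn0.ne']
      linarith
    have h3 : (2 * P.card : ℝ) < (n : ℝ) * n := by exact_mod_cast hP
    have hT : (0 : ℝ) < ((2 : ℝ) ^ d) ^ k := by positivity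
    have h4 : (1 : ℝ) ≤ 2 * P.card * exp (-(k * ε ^ 2) / 32) := by
      by_contra h
      nlinarith [not_le.1 h]
    have h5 : 2 * (P.card : ℝ) * exp (-(k * ε ^ 2) / 32) < 1 := by
      calc 2 * (P.card : ℝ) * exp (-(k * ε ^ 2) / 32) < (n : ℝ) * n * exp (-(k * ε ^ 2) / 32) :=
            mul_lt_mul_of_pos_right h3 (exp_pos _)
        _ ≤ (n : ℝ) * n * (1 / ((n : ℝ) * n)) := mul_le_mul_of_nonneg_left h2 (by positivity)
        _ = 1 := by field_simp
    linarith
  let g : E →ₗ[ℝ] (Fin k → ℝ) :=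
    LinearMap.pi fun i => (√(k : ℝ))⁻¹ • ∑ l, sgn (s i l) • (LinearMap.proj l).comp c
  let f : E →ₗ[ℝ] EuclideanSpace ℝ (Fin k) :=
    (WithLp.linearEquiv 2 ℝ (Fin k → ℝ)).symm.toLinearMap.comp g
  have hf : ∀ v, ‖f v‖ ^ 2 = (k : ℝ)⁻¹ * ∑ i, rad (c v) (s i) ^ 2 := by
    intro v
    rw [EuclideanSpace.norm_sq_eq, mul_sum]
    refine sum_congr rfl fun i _ => ?_
    have : f v i = (√(k : ℝ))⁻¹ * rad (c v) (s i) := by
      simp [f, g, rad, mul_comm]
    rw [this, Real.norm_eq_abs, sq_abs, mul_pow, inv_pow, sq_sqrt hk0.le]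
  have key : ∀ p ∈ P, (1 - ε) * ‖u p‖ ^ 2 ≤ ‖f (u p)‖ ^ 2 ∧ ‖f (u p)‖ ^ 2 ≤ (1 + ε) * ‖u p‖ ^ 2 := by
    intro p hp
    obtain ⟨h1, h2⟩ := hs p hp
    rw [hf, le_inv_mul_iff₀ hk0, inv_mul_le_iff₀ hk0]
    exact ⟨le_trans (le_of_eq (by ring)) h1, h2.trans (le_of_eq (by ring))⟩
  refine ⟨f, fun i j => ?_⟩
  rcases lt_trichotomy i j with h | rfl | h
  · simpa [u, map_sub] using key (i, j) (by simp [P, h])
  · simp
  · rw [norm_sub_rev (x i), norm_sub_rev (f (x i))]
    simpa [u, map_sub] using key (j, i) (by simp [P, h])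

end FA.JohnsonLindenstrauss
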